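/-
Cell A2 (inertia at `q ‖ N`), piece **M5-abs** (helper168).  Mathlib only.

GLOBAL form of "every crossing point of the special fibre is an ordinary node", in the chart ring
`B` itself (no localisation, no completion, no residue-field hypothesis).

Setting (application: `B` = normal chart of `X₀(qM)` over `R`, `w` uniformiser of `R`,
`𝔭₁ = 𝔭_∞`, `𝔭₂ = 𝔭_0` the two minimal primes over `w`, `A₁ = α^*(B_M)`, `A₂ = β^*(B_M)`):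

* `𝔭₁ ⊓ 𝔭₂ ≤ (w)`                                   (M2: the special fibre is reduced);
* `A₁ → B/𝔭₁` and `A₂ → B/𝔭₂` are onto               (M4: the components are the level-`M` curve);
* every `a ∈ A₁` is a `q`-th power modulo `𝔭₂` (locally at `𝔪`), every `a ∈ A₂` is a `q`-th power
  modulo `𝔭₁` (locally at `𝔪`)                        (Kronecker: `β^* = Frob ∘ α^*` on `Z₁`, ...);
* `B/𝔭₁`, `B/𝔭₂` are locally principal at `𝔪`         (`LocGen`; S18 b2 at level `M`).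

Conclusion (`exists_node_gens`): for every prime `𝔪 ⊇ 𝔭₁ + 𝔭₂` there are `x ∈ 𝔭₂`, `y ∈ 𝔭₁` with
`𝔪 = (x, y, w)`, `𝔭₁ = (y, w)`, `𝔭₂ = (x, w)` locally at `𝔪`, `x * y ∈ (w)`, and `x` (resp. `y`) is a
local generator of `𝔪` modulo `𝔭₁` (resp. `𝔭₂`).  At a point lying on one component only:
`exists_smooth_gen`.  `locGen_of_isDedekindDomain` produces `LocGen` from `IsDedekindDomain (B ⧸ 𝔭)`.
-/
import Mathlib.RingTheory.DedekindDomain.Ideal.Lemmas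
import Mathlib.RingTheory.Ideal.Quotient.Operations
import Mathlib.RingTheory.Localization.AtPrime.Basic

set_option autoImplicit false

namespace Fermat.Agent.A2.H168

open Ideal

variable {B : Type*} [CommRing B]

/-- `s` is a **local generator of `𝔪` modulo `𝔭` at `𝔪`**: `s ∈ 𝔪` and every `z ∈ 𝔪` satisfies
`t * z ∈ (s) + 𝔭` for some `t ∉ 𝔪`.  (I.e. `s` generates the maximal ideal of `(B/𝔭)_𝔪`.) -/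
def LocGen (𝔭 𝔪 : Ideal B) (s : B) : Prop :=
  s ∈ 𝔪 ∧ ∀ z ∈ 𝔪, ∃ t, t ∉ 𝔪 ∧ t * z ∈ span {s} ⊔ 𝔭

theorem mem_span_singleton_sup_iff {𝔭 : Ideal B} {s z : B} :
    z ∈ span {s} ⊔ 𝔭 ↔ ∃ r : B, z - r * s ∈ 𝔭 := by
  constructor
  · intro h
    obtain ⟨a, ha, p, hp, rfl⟩ := Submodule.mem_sup.1 h
    obtain ⟨r, rfl⟩ := Ideal.mem_span_singleton'.1 ha
    exact ⟨r, by simpa using hp⟩
  · rintro ⟨r, hr⟩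
    have : z = r * s + (z - r * s) := by ring
    rw [this]
    exact Submodule.add_mem_sup (Ideal.mul_mem_left _ _ (Ideal.mem_span_singleton_self s)) hr

/-- A local generator may be changed modulo `𝔭` and by a factor outside `𝔪`:
if `u * x ≡ v * s mod 𝔭` with `v ∉ 𝔪` and `x ∈ 𝔪`, then `x` is a local generator as well. -/
theorem LocGen.of_mul_sub_mem {𝔭 𝔪 : Ideal B} [𝔪.IsPrime] {s x u v : B}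
    (hs : LocGen 𝔭 𝔪 s) (hx : x ∈ 𝔪) (hv : v ∉ 𝔪) (h : u * x - v * s ∈ 𝔭) :
    LocGen 𝔭 𝔪 x := by
  refine ⟨hx, fun z hz => ?_⟩
  obtain ⟨t, ht, htz⟩ := hs.2 z hz
  obtain ⟨r, hr⟩ := mem_span_singleton_sup_iff.1 htz
  refine ⟨v * t, fun hvt => ?_, ?_⟩
  · rcases (Ideal.IsPrime.mem_or_mem ‹_› hvt) with h1 | h1
    · exact hv h1
    · exact ht h1
  · refine mem_span_singleton_sup_iff.2 ⟨r * u, ?_⟩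
    have : v * t * z - r * u * x = v * (t * z - r * s) - r * (u * x - v * s) := by ring
    rw [this]
    exact Ideal.sub_mem _ (Ideal.mul_mem_left _ _ hr) (Ideal.mul_mem_left _ _ h)

theorem pow_sub_pow_mem {𝔭 : Ideal B} {a b : B} (h : a - b ∈ 𝔭) (n : ℕ) : a ^ n - b ^ n ∈ 𝔭 := by
  obtain ⟨c, hc⟩ := sub_dvd_pow_sub_pow a b n
  rw [hc]
  exact Ideal.mul_mem_right _ _ h

/-- If `z ≡ r * s mod 𝔭` then `z ^ n ≡ r ^ n * s ^ n mod 𝔭`; for `n ≥ 2` this is `s * (s * c)`. -/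
theorem exists_pow_sub_mul_mem {𝔭 : Ideal B} {s z r : B} (h : z - r * s ∈ 𝔭) {n : ℕ}
    (hn : 2 ≤ n) : ∃ c : B, z ^ n - s * (s * c) ∈ 𝔭 := by
  obtain ⟨k, rfl⟩ := Nat.exists_eq_add_of_le hn
  refine ⟨r ^ (2 + k) * s ^ k, ?_⟩
  have h1 := pow_sub_pow_mem h (2 + k)
  have : (r * s) ^ (2 + k) = s * (s * (r ^ (2 + k) * s ^ k)) := by ring
  rwa [this] at h1

/-- **Key step.**  From the Frobenius relations: there is `x ∈ 𝔭₂` which is a local generator of `𝔪`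
modulo `𝔭₁`. -/
theorem exists_mem_locGen (q : ℕ) (hq : 2 ≤ q) {𝔭₁ 𝔭₂ 𝔪 : Ideal B} [𝔪.IsPrime]
    (h1 : 𝔭₁ ≤ 𝔪) (h2 : 𝔭₂ ≤ 𝔪) (A₁ A₂ : Set B)
    (hA₁ : ∀ b : B, ∃ a ∈ A₁, b - a ∈ 𝔭₁) (hA₂ : ∀ b : B, ∃ a ∈ A₂, b - a ∈ 𝔭₂)
    (hF₁ : ∀ a ∈ A₁, ∃ b c : B, c ∉ 𝔪 ∧ c ^ q * a - b ^ q ∈ 𝔭₂)
    (hF₂ : ∀ a ∈ A₂, ∃ b c : B, c ∉ 𝔪 ∧ c ^ q * a - b ^ q ∈ 𝔭₁)
    {s₁ : B} (hs₁ : LocGen 𝔭₁ 𝔪 s₁) :
    ∃ x ∈ 𝔭₂, LocGen 𝔭₁ 𝔪 x := by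
  have hq0 : q ≠ 0 := by omega
  -- replace `s₁` by an element `a₁ ∈ A₁`
  obtain ⟨a₁, ha₁A, ha₁⟩ := hA₁ s₁
  have ha₁m : a₁ ∈ 𝔪 := by
    have : a₁ = s₁ - (s₁ - a₁) := by ring
    rw [this]
    exact Ideal.sub_mem _ hs₁.1 (h1 ha₁)
  have hg₁ : LocGen 𝔭₁ 𝔪 a₁ := by
    refine hs₁.of_mul_sub_mem (u := 1) (v := 1) ha₁m (fun h => ?_) ?_
    · exact (Ideal.ne_top_iff_one 𝔪).1 (Ideal.IsPrime.ne_top ‹_›) h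
    · have : (1 : B) * a₁ - 1 * s₁ = -(s₁ - a₁) := by ring
      rw [this]
      exact Ideal.neg_mem_iff _ |>.2 ha₁
  -- Frobenius relation for `a₁`, and a representative `a₂ ∈ A₂` of the `q`-th root
  obtain ⟨b, c, hc, hbc⟩ := hF₁ a₁ ha₁A
  obtain ⟨a₂, ha₂A, ha₂⟩ := hA₂ b
  have hca : c ^ q * a₁ - a₂ ^ q ∈ 𝔭₂ := by
    have : c ^ q * a₁ - a₂ ^ q = (c ^ q * a₁ - b ^ q) + (b ^ q - a₂ ^ q) := by ring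
    rw [this]
    exact Ideal.add_mem _ hbc (pow_sub_pow_mem ha₂ q)
  -- Frobenius relation for `a₂`
  obtain ⟨b', c', hc', hbc'⟩ := hF₂ a₂ ha₂A
  -- the element `x`
  set x : B := (c' ^ q) ^ q * (c ^ q * a₁ - a₂ ^ q) with hx
  have hx2 : x ∈ 𝔭₂ := Ideal.mul_mem_left _ _ hca
  have hxm : x ∈ 𝔪 := h2 hx2
  -- `a₂ ∈ 𝔪`, `b' ∈ 𝔪`
  have ha₂m : a₂ ∈ 𝔪 := by
    have h3 : a₂ ^ q ∈ 𝔪 := by
      have : a₂ ^ q = c ^ q * a₁ - (c ^ q * a₁ - a₂ ^ q) := by ring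
      rw [this]
      exact Ideal.sub_mem _ (Ideal.mul_mem_left _ _ ha₁m) (h2 hca)
    exact Ideal.IsPrime.mem_of_pow_mem ‹_› q h3
  have hb'm : b' ∈ 𝔪 := by
    have h3 : b' ^ q ∈ 𝔪 := by
      have : b' ^ q = c' ^ q * a₂ - (c' ^ q * a₂ - b' ^ q) := by ring
      rw [this]
      exact Ideal.sub_mem _ (Ideal.mul_mem_left _ _ ha₂m) (h1 hbc')
    exact Ideal.IsPrime.mem_of_pow_mem ‹_› q h3
  -- modulo `𝔭₁`: `x ≡ (c'^q)^q c^q a₁ - (b'^q)^q`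
  have hx1 : x - ((c' ^ q) ^ q * c ^ q * a₁ - (b' ^ q) ^ q) ∈ 𝔭₁ := by
    have : x - ((c' ^ q) ^ q * c ^ q * a₁ - (b' ^ q) ^ q)
        = -((c' ^ q * a₂) ^ q - (b' ^ q) ^ q) := by
      rw [hx]; ring
    rw [this]
    exact (Ideal.neg_mem_iff _).2 (pow_sub_pow_mem hbc' q)
  -- `b'` is locally a multiple of `a₁` modulo `𝔭₁`
  obtain ⟨t, ht, htb⟩ := hg₁.2 b' hb'm
  obtain ⟨r, hr⟩ := mem_span_singleton_sup_iff.1 htb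
  have hqq : 2 ≤ q * q := by nlinarith
  obtain ⟨e, he⟩ := exists_pow_sub_mul_mem hr hqq
  -- `t^(q*q) * x ≡ a₁ * v` with `v ∉ 𝔪`
  set v : B := t ^ (q * q) * ((c' ^ q) ^ q * c ^ q) - a₁ * e with hv
  have hvm : v ∉ 𝔪 := by
    intro hvm
    have h3 : t ^ (q * q) * ((c' ^ q) ^ q * c ^ q) ∈ 𝔪 := by
      have : t ^ (q * q) * ((c' ^ q) ^ q * c ^ q) = v + a₁ * e := by rw [hv]; ring
      rw [this]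
      exact Ideal.add_mem _ hvm (Ideal.mul_mem_right _ _ ha₁m)
    rcases Ideal.IsPrime.mem_or_mem ‹_› h3 with h4 | h4
    · exact ht (Ideal.IsPrime.mem_of_pow_mem ‹_› _ h4)
    · rcases Ideal.IsPrime.mem_or_mem ‹_› h4 with h5 | h5
      · exact hc' (Ideal.IsPrime.mem_of_pow_mem ‹_› _
          (Ideal.IsPrime.mem_of_pow_mem ‹_› _ h5))
      · exact hc (Ideal.IsPrime.mem_of_pow_mem ‹_› _ h5)
  refine ⟨x, hx2, hg₁.of_mul_sub_mem (u := t ^ (q * q)) (v := v) hxm hvm ?_⟩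
  have : t ^ (q * q) * x - v * a₁
      = t ^ (q * q) * (x - ((c' ^ q) ^ q * c ^ q * a₁ - (b' ^ q) ^ q))
        - ((t * b') ^ (q * q) - a₁ * (a₁ * e)) := by
    rw [hv]; ring
  rw [this]
  exact Ideal.sub_mem _ (Ideal.mul_mem_left _ _ hx1) he

/-- **Node from local generators.**  If `x ∈ 𝔭₂` is a local generator of `𝔪` mod `𝔭₁`, `y ∈ 𝔭₁` a
local generator of `𝔪` mod `𝔭₂`, and `𝔭₁ ⊓ 𝔭₂ ≤ (w)`, then locally at `𝔪`: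
`𝔪 = (x, y, w)`, `𝔭₁ = (y, w)`, `𝔭₂ = (x, w)`. -/
theorem node_of_locGen (w : B) {𝔭₁ 𝔭₂ 𝔪 : Ideal B} [𝔪.IsPrime]
    (hw : 𝔭₁ ⊓ 𝔭₂ ≤ span {w}) (h1 : 𝔭₁ ≤ 𝔪) (h2 : 𝔭₂ ≤ 𝔪)
    {x y : B} (hx2 : x ∈ 𝔭₂) (hy1 : y ∈ 𝔭₁) (hx : LocGen 𝔭₁ 𝔪 x) (hy : LocGen 𝔭₂ 𝔪 y) :
    (∀ z ∈ 𝔪, ∃ t, t ∉ 𝔪 ∧ t * z ∈ span {x, y, w}) ∧
    (∀ z ∈ 𝔭₁, ∃ t, t ∉ 𝔪 ∧ t * z ∈ span {y, w}) ∧
    (∀ z ∈ 𝔭₂, ∃ t, t ∉ 𝔪 ∧ t * z ∈ span {x, w}) ∧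
    x * y ∈ span {w} := by
  have key : ∀ {𝔞 𝔟 : Ideal B} {u : B}, 𝔞 ⊓ 𝔟 ≤ span {w} → 𝔞 ≤ 𝔪 → u ∈ 𝔞 → LocGen 𝔟 𝔪 u →
      ∀ z ∈ 𝔞, ∃ t, t ∉ 𝔪 ∧ t * z ∈ span {u, w} := by
    intro 𝔞 𝔟 u hab ha hu hg z hz
    obtain ⟨t, ht, htz⟩ := hg.2 z (ha hz)
    obtain ⟨r, hr⟩ := mem_span_singleton_sup_iff.1 htz
    refine ⟨t, ht, ?_⟩
    have hmem : t * z - r * u ∈ 𝔞 ⊓ 𝔟 :=
      ⟨Ideal.sub_mem _ (Ideal.mul_mem_left _ _ hz) (Ideal.mul_mem_left _ _ hu), hr⟩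
    have h3 := hw.trans' le_rfl |> fun _ => hab hmem
    obtain ⟨e, he⟩ := Ideal.mem_span_singleton'.1 h3
    have : t * z = r * u + e * w := by rw [he]; ring
    rw [this]
    exact Ideal.add_mem _
      (Ideal.mul_mem_left _ _ (Ideal.subset_span (by simp)))
      (Ideal.mul_mem_left _ _ (Ideal.subset_span (by simp)))
  have hP1 : ∀ z ∈ 𝔭₁, ∃ t, t ∉ 𝔪 ∧ t * z ∈ span {y, w} := key hw h1 hy1 hy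
  have hP2 : ∀ z ∈ 𝔭₂, ∃ t, t ∉ 𝔪 ∧ t * z ∈ span {x, w} :=
    key (by rwa [inf_comm]) h2 hx2 hx
  refine ⟨?_, hP1, hP2, ?_⟩
  · intro z hz
    obtain ⟨t, ht, htz⟩ := hx.2 z hz
    obtain ⟨r, hr⟩ := mem_span_singleton_sup_iff.1 htz
    obtain ⟨t', ht', htz'⟩ := hP1 _ hr
    refine ⟨t' * t, fun h => ?_, ?_⟩
    · rcases Ideal.IsPrime.mem_or_mem ‹_› h with h3 | h3
      · exact ht' h3
      · exact ht h3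
    · have : t' * t * z = t' * (t * z - r * x) + t' * r * x := by ring
      rw [this]
      refine Ideal.add_mem _ ?_ ?_
      · refine (Ideal.span_mono ?_) htz'
        intro a ha
        simp only [Set.mem_insert_iff, Set.mem_singleton_iff] at ha ⊢
        tauto
      · exact Ideal.mul_mem_left _ _ (Ideal.subset_span (by simp))
  · exact hw ⟨Ideal.mul_mem_left _ _ hy1, Ideal.mul_mem_right _ _ hx2⟩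

/-- **M5-abs (global form).**  See the header of this file. -/
theorem exists_node_gens (w : B) (q : ℕ) (hq : 2 ≤ q) {𝔭₁ 𝔭₂ 𝔪 : Ideal B} [𝔪.IsPrime]
    (hw : 𝔭₁ ⊓ 𝔭₂ ≤ span {w}) (h1 : 𝔭₁ ≤ 𝔪) (h2 : 𝔭₂ ≤ 𝔪) (A₁ A₂ : Set B)
    (hA₁ : ∀ b : B, ∃ a ∈ A₁, b - a ∈ 𝔭₁) (hA₂ : ∀ b : B, ∃ a ∈ A₂, b - a ∈ 𝔭₂)
    (hF₁ : ∀ a ∈ A₁, ∃ b c : B, c ∉ 𝔪 ∧ c ^ q * a - b ^ q ∈ 𝔭₂)
    (hF₂ : ∀ a ∈ A₂, ∃ b c : B, c ∉ 𝔪 ∧ c ^ q * a - b ^ q ∈ 𝔭₁)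
    {s₁ s₂ : B} (hs₁ : LocGen 𝔭₁ 𝔪 s₁) (hs₂ : LocGen 𝔭₂ 𝔪 s₂) :
    ∃ x ∈ 𝔭₂, ∃ y ∈ 𝔭₁, LocGen 𝔭₁ 𝔪 x ∧ LocGen 𝔭₂ 𝔪 y ∧
      (∀ z ∈ 𝔪, ∃ t, t ∉ 𝔪 ∧ t * z ∈ span {x, y, w}) ∧
      (∀ z ∈ 𝔭₁, ∃ t, t ∉ 𝔪 ∧ t * z ∈ span {y, w}) ∧
      (∀ z ∈ 𝔭₂, ∃ t, t ∉ 𝔪 ∧ t * z ∈ span {x, w}) ∧
      x * y ∈ span {w} := by
  obtain ⟨x, hx2, hx⟩ := exists_mem_locGen q hq h1 h2 A₁ A₂ hA₁ hA₂ hF₁ hF₂ hs₁
  obtain ⟨y, hy1, hy⟩ := exists_mem_locGen q hq h2 h1 A₂ A₁ hA₂ hA₁ hF₂ hF₁ hs₂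
  exact ⟨x, hx2, y, hy1, hx, hy, node_of_locGen w hw h1 h2 hx2 hy1 hx hy⟩

/-- **Smooth points.**  If `𝔪 ⊇ 𝔭₁` but `𝔪 ⊉ 𝔭₂` and `𝔭₁ ⊓ 𝔭₂ ≤ (w)`, a local generator `s` of `𝔪`
modulo `𝔭₁` gives `𝔪 = (s, w)` and `𝔭₁ = (w)` locally at `𝔪`. -/
theorem exists_smooth_gen (w : B) {𝔭₁ 𝔭₂ 𝔪 : Ideal B} [𝔪.IsPrime]
    (hw : 𝔭₁ ⊓ 𝔭₂ ≤ span {w}) (h2 : ¬ 𝔭₂ ≤ 𝔪)
    {s : B} (hs : LocGen 𝔭₁ 𝔪 s) :
    (∀ z ∈ 𝔭₁, ∃ t, t ∉ 𝔪 ∧ t * z ∈ span {w}) ∧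
    (∀ z ∈ 𝔪, ∃ t, t ∉ 𝔪 ∧ t * z ∈ span {s, w}) := by
  obtain ⟨g, hg2, hgm⟩ := Set.not_subset.1 h2
  have hP1 : ∀ z ∈ 𝔭₁, ∃ t, t ∉ 𝔪 ∧ t * z ∈ span {w} := fun z hz =>
    ⟨g, hgm, hw ⟨Ideal.mul_mem_left _ _ hz, Ideal.mul_mem_right _ _ hg2⟩⟩
  refine ⟨hP1, fun z hz => ?_⟩
  obtain ⟨t, ht, htz⟩ := hs.2 z hz
  obtain ⟨r, hr⟩ := mem_span_singleton_sup_iff.1 htz
  obtain ⟨t', ht', htz'⟩ := hP1 _ hr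
  refine ⟨t' * t, fun h => ?_, ?_⟩
  · rcases Ideal.IsPrime.mem_or_mem ‹_› h with h3 | h3
    · exact ht' h3
    · exact ht h3
  · have : t' * t * z = t' * (t * z - r * s) + t' * r * s := by ring
    rw [this]
    refine Ideal.add_mem _ ?_ ?_
    · refine (Ideal.span_mono ?_) htz'
      intro a ha
      simp only [Set.mem_insert_iff, Set.mem_singleton_iff] at ha ⊢
      tauto
    · exact Ideal.mul_mem_left _ _ (Ideal.subset_span (by simp))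

end Fermat.Agent.A2.H168
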