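/-
Cell A2, piece **M5-abs** (helper168), part 2.  Mathlib only.

* `exists_locGen_of_isDedekindDomain` : if `B ⧸ 𝔭` is a Dedekind domain and `𝔪 ⊋ 𝔭` is a prime, there
  is a local generator of `𝔪` modulo `𝔭` (`LocGen 𝔭 𝔪 s`).
* `exists_node_gens_of_isDedekindDomain` : M5-abs with Dedekind hypotheses on the two components.
* `maximalIdeal_eq_span_of_locally` : translation of the "locally at `𝔪`" conclusions into
  `Localization.AtPrime 𝔪` (any localisation at `𝔪`): `𝔪 S = (x, y, w) S`.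
-/
import Fermat.Agent.A2.H168.NodeGlobal

set_option autoImplicit false

namespace Fermat.Agent.A2.H168

open Ideal

variable {B : Type*} [CommRing B]

/-- In a Dedekind domain, a nonzero prime `M` has an element `s ∈ M` generating it locally:
every `z ∈ M` has `t * z ∈ (s)` for some `t ∉ M`. -/
theorem exists_local_generator_dedekind {D : Type*} [CommRing D] [IsDedekindDomain D]
    (M : Ideal D) [hM : M.IsPrime] (hM0 : M ≠ ⊥) :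
    ∃ s ∈ M, ∀ z ∈ M, ∃ t, t ∉ M ∧ t * z ∈ span {s} := by
  have hlt : M ^ 2 < M := Ideal.pow_lt_self M hM0 hM.ne_top 2 le_rfl
  obtain ⟨s, hsM, hs2⟩ := SetLike.exists_of_lt hlt
  obtain ⟨I, hI⟩ : M ∣ span {s} := Ideal.dvd_span_singleton.2 hsM
  have hIM : ¬ I ≤ M := by
    intro hle
    have h1 : M * I ≤ M * M := Ideal.mul_mono_right hle
    have h2 : s ∈ M * M := h1 (hI ▸ Ideal.mem_span_singleton_self s)
    exact hs2 (by rwa [pow_two])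
  obtain ⟨t, htI, htM⟩ := Set.not_subset.1 hIM
  refine ⟨s, hsM, fun z hz => ⟨t, htM, ?_⟩⟩
  rw [hI, mul_comm t z]
  exact Ideal.mul_mem_mul hz htI

/-- If `B ⧸ 𝔭` is a Dedekind domain and `𝔭 < 𝔪` with `𝔪` prime, then `𝔪` has a local generator
modulo `𝔭`. -/
theorem exists_locGen_of_isDedekindDomain (𝔭 𝔪 : Ideal B) [𝔪.IsPrime]
    [IsDedekindDomain (B ⧸ 𝔭)] (hlt : 𝔭 < 𝔪) :
    ∃ s, LocGen 𝔭 𝔪 s := by
  have hle : 𝔭 ≤ 𝔪 := hlt.le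
  set π := Ideal.Quotient.mk 𝔭 with hπ
  have hsurj : Function.Surjective π := Ideal.Quotient.mk_surjective
  have hker : RingHom.ker π ≤ 𝔪 := by rw [hπ, Ideal.mk_ker]; exact hle
  have : (𝔪.map π).IsPrime := Ideal.map_isPrime_of_surjective hsurj hker
  have hmem : ∀ x : B, π x ∈ 𝔪.map π ↔ x ∈ 𝔪 := fun x => Ideal.mem_quotient_iff_mem hle
  have h0 : 𝔪.map π ≠ ⊥ := by
    obtain ⟨g, hgm, hgp⟩ := SetLike.exists_of_lt hlt
    intro h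
    have : π g ∈ 𝔪.map π := (hmem g).2 hgm
    rw [h, Ideal.mem_bot, hπ, Ideal.Quotient.eq_zero_iff_mem] at this
    exact hgp this
  obtain ⟨s', hs', hgen⟩ := exists_local_generator_dedekind (𝔪.map π) h0
  obtain ⟨s, rfl⟩ := hsurj s'
  refine ⟨s, (hmem s).1 hs', fun z hz => ?_⟩
  obtain ⟨t', ht', htz⟩ := hgen (π z) ((hmem z).2 hz)
  obtain ⟨t, rfl⟩ := hsurj t'
  refine ⟨t, fun h => ht' ((hmem t).2 h), ?_⟩
  obtain ⟨r', hr'⟩ := Ideal.mem_span_singleton'.1 htz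
  obtain ⟨r, rfl⟩ := hsurj r'
  refine mem_span_singleton_sup_iff.2 ⟨r, ?_⟩
  rw [← Ideal.Quotient.eq_zero_iff_mem, ← hπ, map_sub, map_mul, map_mul, hr', sub_self]

/-- **M5-abs with Dedekind components.** -/
theorem exists_node_gens_of_isDedekindDomain (w : B) (q : ℕ) (hq : 2 ≤ q)
    {𝔭₁ 𝔭₂ 𝔪 : Ideal B} [𝔪.IsPrime]
    [IsDedekindDomain (B ⧸ 𝔭₁)] [IsDedekindDomain (B ⧸ 𝔭₂)]
    (hw : 𝔭₁ ⊓ 𝔭₂ ≤ span {w}) (h1 : 𝔭₁ < 𝔪) (h2 : 𝔭₂ < 𝔪) (A₁ A₂ : Set B)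
    (hA₁ : ∀ b : B, ∃ a ∈ A₁, b - a ∈ 𝔭₁) (hA₂ : ∀ b : B, ∃ a ∈ A₂, b - a ∈ 𝔭₂)
    (hF₁ : ∀ a ∈ A₁, ∃ b c : B, c ∉ 𝔪 ∧ c ^ q * a - b ^ q ∈ 𝔭₂)
    (hF₂ : ∀ a ∈ A₂, ∃ b c : B, c ∉ 𝔪 ∧ c ^ q * a - b ^ q ∈ 𝔭₁) :
    ∃ x ∈ 𝔭₂, ∃ y ∈ 𝔭₁, LocGen 𝔭₁ 𝔪 x ∧ LocGen 𝔭₂ 𝔪 y ∧
      (∀ z ∈ 𝔪, ∃ t, t ∉ 𝔪 ∧ t * z ∈ span {x, y, w}) ∧
      (∀ z ∈ 𝔭₁, ∃ t, t ∉ 𝔪 ∧ t * z ∈ span {y, w}) ∧
      (∀ z ∈ 𝔭₂, ∃ t, t ∉ 𝔪 ∧ t * z ∈ span {x, w}) ∧
      x * y ∈ span {w} := by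
  obtain ⟨s₁, hs₁⟩ := exists_locGen_of_isDedekindDomain 𝔭₁ 𝔪 h1
  obtain ⟨s₂, hs₂⟩ := exists_locGen_of_isDedekindDomain 𝔭₂ 𝔪 h2
  exact exists_node_gens w q hq hw h1.le h2.le A₁ A₂ hA₁ hA₂ hF₁ hF₂ hs₁ hs₂

/-- Translation to a localisation `S` of `B` at the prime `𝔪`: if every `z ∈ 𝔞` satisfies
`t * z ∈ span T` for some `t ∉ 𝔪`, then `𝔞 S ≤ (T) S`. -/
theorem map_le_span_of_locally {𝔪 : Ideal B} [𝔪.IsPrime] (S : Type*) [CommRing S] [Algebra B S]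
    [IsLocalization.AtPrime S 𝔪] {𝔞 : Ideal B} {T : Set B}
    (h : ∀ z ∈ 𝔞, ∃ t, t ∉ 𝔪 ∧ t * z ∈ span T) :
    𝔞.map (algebraMap B S) ≤ (span T).map (algebraMap B S) := by
  rw [Ideal.map_le_iff_le_comap]
  intro z hz
  obtain ⟨t, ht, htz⟩ := h z hz
  rw [Ideal.mem_comap]
  have hu : IsUnit (algebraMap B S t) :=
    IsLocalization.map_units S (⟨t, ht⟩ : 𝔪.primeCompl)
  have h1 : algebraMap B S (t * z) ∈ (span T).map (algebraMap B S) := Ideal.mem_map_of_mem _ htz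
  rw [map_mul] at h1
  exact (Ideal.unit_mul_mem_iff_mem _ hu).1 h1

/-- **Localised node.**  In the localisation `S` of `B` at `𝔪`, under the conclusions of
`exists_node_gens`: the maximal ideal is generated by the images of `x, y, w`. -/
theorem maximalIdeal_eq_span_of_locally {𝔪 : Ideal B} [𝔪.IsPrime] (S : Type*) [CommRing S]
    [Algebra B S] [IsLocalization.AtPrime S 𝔪] [IsLocalRing S] {x y w : B}
    (hx : x ∈ 𝔪) (hy : y ∈ 𝔪) (hwm : w ∈ 𝔪)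
    (h : ∀ z ∈ 𝔪, ∃ t, t ∉ 𝔪 ∧ t * z ∈ span {x, y, w}) :
    IsLocalRing.maximalIdeal S
      = span {algebraMap B S x, algebraMap B S y, algebraMap B S w} := by
  have hmax : IsLocalRing.maximalIdeal S = 𝔪.map (algebraMap B S) :=
    (IsLocalization.AtPrime.map_eq_maximalIdeal 𝔪 S).symm
  have himg : (span ({x, y, w} : Set B)).map (algebraMap B S)
      = span {algebraMap B S x, algebraMap B S y, algebraMap B S w} := by
    rw [Ideal.map_span]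
    congr 1
    ext a
    simp only [Set.mem_image, Set.mem_insert_iff, Set.mem_singleton_iff]
    constructor
    · rintro ⟨b, (rfl | rfl | rfl), rfl⟩ <;> simp
    · rintro (rfl | rfl | rfl)
      · exact ⟨x, Or.inl rfl, rfl⟩
      · exact ⟨y, Or.inr (Or.inl rfl), rfl⟩
      · exact ⟨w, Or.inr (Or.inr rfl), rfl⟩
  rw [hmax, ← himg]
  refine le_antisymm (map_le_span_of_locally S h) (Ideal.map_mono ?_)
  rw [Ideal.span_le]
  intro a ha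
  simp only [Set.mem_insert_iff, Set.mem_singleton_iff] at ha
  rcases ha with rfl | rfl | rfl
  · exact hx
  · exact hy
  · exact hwm

end Fermat.Agent.A2.H168
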